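/-
S36, block BP, task BP-ROOT (helper29), part (a): a point `R` of the model through which passes a
component with principal prime is a local noetherian unique factorisation domain with fraction
field `F`.
-/
import Mathlib
import Fermat.Agent.S18.Defs
import Fermat.Agent.S18.Abs.PrincipalPrime
import Fermat.Agent.S36.BP.Defs

set_option autoImplicit false

namespace Fermat.Agent.S36.BP.LocalRoot

open Fermat.Agent.S18 Fermat.Agent.S18.Abs IsLocalRing

section Sub

variable {F : Type*} [Field F] {R : Subring F}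

theorem isUnit_iff_rUnit (r : R) : IsUnit r ↔ RUnit R (r : F) := by
  constructor
  · rintro ⟨⟨a, b, hab, hba⟩, rfl⟩
    have h1 : (a : F) * (b : F) = 1 := congrArg Subtype.val hab
    have ha0 : (a : F) ≠ 0 := left_ne_zero_of_mul_eq_one h1
    refine ⟨ha0, a.2, ?_⟩
    rw [← eq_inv_of_mul_eq_one_right h1]
    exact b.2
  · rintro ⟨h0, -, hinv⟩
    exact ⟨⟨r, ⟨_, hinv⟩, Subtype.ext (mul_inv_cancel₀ h0), Subtype.ext (inv_mul_cancel₀ h0)⟩, rfl⟩

theorem coe_mem_rad_iff (r : R) : (r : F) ∈ rad R ↔ ¬ IsUnit r := by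
  rw [isUnit_iff_rUnit]
  exact ⟨fun h => h.2, fun h => ⟨r.2, h⟩⟩

theorem isLocalRing_of_add_rad (h : ∀ a ∈ rad R, ∀ b ∈ rad R, a + b ∈ rad R) : IsLocalRing R := by
  refine IsLocalRing.of_nonunits_add ?_
  intro a b ha hb
  rw [mem_nonunits_iff, ← coe_mem_rad_iff] at *
  exact h _ ha _ hb

theorem isFractionRing_of_through {V : ValuationSubring F} (hT : Through R V) :
    IsFractionRing R F := by
  refine IsFractionRing.of_field R F ?_
  have key : ∀ y ∈ V, ∃ a b : R, y = (a : F) / (b : F) := by
    intro y hy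
    obtain ⟨s, hs, hs1, hsy⟩ := hT.loc y hy
    have hs0 : s ≠ 0 := by
      rintro rfl
      simp at hs1
    exact ⟨⟨_, hsy⟩, ⟨s, hs⟩, by field_simp⟩
  intro y
  rcases V.mem_or_inv_mem y with h | h
  · exact key y h
  · obtain ⟨a, b, e⟩ := key _ h
    exact ⟨b, a, by rw [← inv_inj, e, inv_div]; rfl⟩

theorem through_valuation_le_one {V : ValuationSubring F} (hT : Through R V) (r : R) :
    V.valuation (r : F) ≤ 1 :=
  (V.valuation_le_one_iff _).2 (hT.le _ r.2)

/-- The contraction of the maximal ideal of `V` to `R`. -/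
def contr (R : Subring F) (V : ValuationSubring F) (hT : Through R V) : Ideal R where
  carrier := {r | V.valuation (r : F) < 1}
  add_mem' := by
    intro a b ha hb
    exact lt_of_le_of_lt (V.valuation.map_add _ _) (max_lt ha hb)
  zero_mem' := by
    show V.valuation ((0 : R) : F) < 1
    simp
  smul_mem' := by
    intro c a ha
    show V.valuation ((c * a : R) : F) < 1
    rw [Subring.coe_mul, map_mul]
    exact mul_lt_one_of_nonneg_of_lt_one_right (through_valuation_le_one hT c) zero_le ha

theorem mem_contr {V : ValuationSubring F} {hT : Through R V} {r : R} :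
    r ∈ contr R V hT ↔ V.valuation (r : F) < 1 := Iff.rfl

theorem contr_isPrime {V : ValuationSubring F} (hT : Through R V) : (contr R V hT).IsPrime := by
  refine ⟨?_, ?_⟩
  · intro h
    have : (1 : R) ∈ contr R V hT := h ▸ Submodule.mem_top
    rw [mem_contr] at this
    simp at this
  · intro a b hab
    by_contra hcon
    push Not at hcon
    rw [mem_contr, mem_contr, not_lt, not_lt] at hcon
    have ha : V.valuation (a : F) = 1 := le_antisymm (through_valuation_le_one hT a) hcon.1
    have hb : V.valuation (b : F) = 1 := le_antisymm (through_valuation_le_one hT b) hcon.2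
    rw [mem_contr, Subring.coe_mul, map_mul, ha, hb, mul_one] at hab
    exact lt_irrefl _ hab

theorem not_isUnit_of_mem_contr {V : ValuationSubring F} {hT : Through R V} {r : R}
    (h : r ∈ contr R V hT) : ¬ IsUnit r := by
  intro hu
  have h1 := (contr_isPrime hT).ne_top
  exact h1 (Ideal.eq_top_of_isUnit_mem _ h hu)

end Sub

section Ufd

variable {K₀ F : Type*} [Field K₀] [Field F] [Algebra K₀ F] {A₀ : ValuationSubring K₀}
  {R : Subring F}

/-- **Part (a).** -/
theorem ufd_of_through_princ (hR : IsPt A₀ R) {V : ValuationSubring F} (hT : Through R V)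
    (hP : Princ R V) : UniqueFactorizationMonoid R := by
  have hloc : IsLocalRing R := isLocalRing_of_add_rad hR.add_rad
  have hnoeth : IsNoetherianRing R := hR.noeth
  obtain ⟨z, hzR, hz0, hzV, hdiv⟩ := hP
  let π : R := ⟨z, hzR⟩
  have hπ0 : π ≠ 0 := fun h => hz0 (congrArg Subtype.val h)
  have hπc : π ∈ contr R V hT := hzV
  have hπm : π ∈ maximalIdeal R := by
    rw [mem_maximalIdeal, mem_nonunits_iff]
    exact not_isUnit_of_mem_contr hπc
  have hspan : Ideal.span {π} = contr R V hT := by
    apply le_antisymm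
    · rw [Ideal.span_singleton_le_iff_mem]
      exact hπc
    · intro y hy
      rw [Ideal.mem_span_singleton]
      refine ⟨⟨_, hdiv y y.2 hy⟩, Subtype.ext ?_⟩
      show (y : F) = z * ((y : F) / z)
      field_simp
  have hprime : (Ideal.span {π}).IsPrime := hspan ▸ contr_isPrime hT
  have hdom : IsDomain (R ⧸ Ideal.span {π}) := (Ideal.Quotient.isDomain_iff_prime _).2 hprime
  have hlocq : IsLocalRing (R ⧸ Ideal.span {π}) :=
    IsLocalRing.of_surjective' (Ideal.Quotient.mk _) Ideal.Quotient.mk_surjective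
  have hprin : (maximalIdeal (R ⧸ Ideal.span {π})).IsPrincipal := by
    obtain ⟨t, ht, hdvr⟩ := hT.dvr
    let τ : R := ⟨t, ht.1⟩
    have hτ : ¬ IsUnit τ := (coe_mem_rad_iff τ).1 ht
    refine ⟨⟨Ideal.Quotient.mk _ τ, ?_⟩⟩
    apply le_antisymm
    · intro ybar hy
      obtain ⟨y, rfl⟩ := Ideal.Quotient.mk_surjective ybar
      have hyrad : (y : F) ∈ rad R := by
        rw [coe_mem_rad_iff]
        intro hu
        rw [mem_maximalIdeal, mem_nonunits_iff] at hy
        exact hy (hu.map _)
      obtain ⟨r, hr, hlt⟩ := hdvr _ hyrad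
      have h1 : y - (⟨r, hr⟩ : R) * τ ∈ Ideal.span {π} := by
        rw [hspan]
        exact hlt
      rw [Submodule.mem_span_singleton]
      refine ⟨Ideal.Quotient.mk _ ⟨r, hr⟩, ?_⟩
      rw [smul_eq_mul, ← map_mul]
      exact (Ideal.Quotient.eq.2 h1).symm
    · rw [Submodule.span_singleton_le_iff_mem, mem_maximalIdeal, mem_nonunits_iff]
      intro hu
      obtain ⟨sbar, hs⟩ := hu.exists_right_inv
      obtain ⟨s, rfl⟩ := Ideal.Quotient.mk_surjective sbar
      rw [← map_mul, ← map_one (Ideal.Quotient.mk (Ideal.span {π})), Ideal.Quotient.eq] at hs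
      have h2 : τ * s - 1 ∈ maximalIdeal R :=
        (Ideal.span_singleton_le_iff_mem _).2 hπm hs
      have h3 : τ * s ∈ maximalIdeal R :=
        Ideal.mul_mem_right _ _ ((mem_maximalIdeal _).2 hτ)
      have h4 := Ideal.sub_mem _ h3 h2
      rw [sub_sub_cancel] at h4
      exact (Ideal.ne_top_iff_one _).1 (maximalIdeal.isMaximal R).ne_top h4
  have hpir : IsPrincipalIdealRing (R ⧸ Ideal.span {π}) :=
    ((tfae_of_isNoetherianRing_of_isLocalRing_of_isDomain (R ⧸ Ideal.span {π})).out 0 4).mpr hprin
  exact ufd_of_quotient_pid π hπm hπ0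

end Ufd

end Fermat.Agent.S36.BP.LocalRoot
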